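/-
S37 / P-D0 (helper87): exact degrees of the two Hecke degeneracy maps
`α, β : F_N → F_{N ℓ}` (`α` = inclusion, `β` = `q ↦ q^ℓ`) over `ℚ̄`.

* `finrank_adjoin_map_tower` : generic transport of `[F : K(t)]` along an algebra map + tower law;
* `finrank_adjoin_jtop`      : `[F_M : ℚ̄(j(q^M))] = ψ(M)` (Fricke + `[F_M : ℚ̄(j)] = ψ(M)`);
* `finrank_adjoin_jF`        : `[F_M : ℚ̄(j(q^d))] = ψ(M)` for every `d ∣ M`;
* `finiteAlong_alpha`, `finrankAlong_alpha`, `finiteAlong_beta`, `finrankAlong_beta`,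
  `heckeAlphaBarIntegral`, `heckeBetaBarIntegral` : finiteness, integrality and
  `[F_{Nℓ} : α F_N] ψ(N) = ψ(Nℓ) = [F_{Nℓ} : β F_N] ψ(N)`;
* `finrankAlong_alpha_prime`, `finrankAlong_beta_prime` : both degrees are `ℓ + 1` for a prime
  `ℓ ∤ N`.
-/
import Fermat.Agent.S18.H87.Index
import Fermat.Agent.S18.H50.Fricke
import Fermat.Prelude.Def_ModularCurve_HeckeOperatorTotal
import Fermat.Prelude.Def_ModularCurve_X0ModL

set_option autoImplicit false

open AlgebraicCurve ModularCurve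

noncomputable section

namespace Fermat.Agent.S37.H87

open Fermat.Agent.S24

/-- Transport of the degree over `K(t)` along an algebra map, combined with the tower law:
`[F' : K(φ t)] = [F : K(t)] * [F' : F]`. -/
theorem finrank_adjoin_map_tower {K F F' : Type*} [Field K] [Field F] [Field F'] [Algebra K F]
    [Algebra K F'] (φ : F →ₐ[K] F') (t : F) :
    letI : Algebra F F' := φ.toRingHom.toAlgebra
    Module.finrank (IntermediateField.adjoin K {φ t}) F'
      = Module.finrank (IntermediateField.adjoin K {t}) F * Module.finrank F F' := by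
  let _ : Algebra F F' := φ.toRingHom.toAlgebra
  let _ : Algebra (IntermediateField.adjoin K {t}) F' :=
    ((algebraMap F F').comp (algebraMap (IntermediateField.adjoin K {t}) F)).toAlgebra
  have : IsScalarTower (IntermediateField.adjoin K {t}) F F' :=
    IsScalarTower.of_algebraMap_eq fun _ => rfl
  have hmap : (IntermediateField.adjoin K {t}).map φ = IntermediateField.adjoin K {φ t} := by
    rw [IntermediateField.adjoin_map, Set.image_singleton]
  have h1 : Module.finrank (IntermediateField.adjoin K {t}) F'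
      = Module.finrank (IntermediateField.adjoin K {φ t}) F' :=
    Algebra.finrank_eq_of_equiv_equiv
      ((IntermediateField.equivMap (IntermediateField.adjoin K {t}) φ).trans
        (IntermediateField.equivOfEq hmap)).toRingEquiv
      (RingEquiv.refl _) (RingHom.ext fun x => rfl)
  rw [← h1]
  exact (Module.finrank_mul_finrank _ _ _).symm

/-- `[F_M : ℚ̄(j(q^M))] = ψ(M)`. -/
theorem finrank_adjoin_jtop (M : ℕ) [NeZero M] :
    FiniteDimensional (IntermediateField.adjoin Kbar {jF M (topDiv M)}) (FF M) ∧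
      Module.finrank (IntermediateField.adjoin Kbar {jF M (topDiv M)}) (FF M) = dedekindPsi M := by
  obtain ⟨w, -, hww, hwK, hwj⟩ := Fermat.Agent.S18.H50.exists_fricke M
  obtain ⟨-, hdeg⟩ := Fermat.Agent.S18.H87.finrank_adjoin_jgen M
  let wA : FF M →ₐ[Kbar] FF M := { w with commutes' := hwK }
  let wE : FF M ≃+* FF M :=
    RingEquiv.ofRingHom w w (RingHom.ext fun f => hww f) (RingHom.ext fun f => hww f)
  have hwgen : wA (jgen M) = jF M (topDiv M) := by
    show w (jF M (oneDiv M)) = jF M (topDiv M)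
    rw [hwj, Fermat.Agent.S18.H50.fdiv_oneDiv]
  have hmap : (IntermediateField.adjoin Kbar {jgen M}).map wA
      = IntermediateField.adjoin Kbar {jF M (topDiv M)} := by
    rw [IntermediateField.adjoin_map, Set.image_singleton, hwgen]
  have h1 : Module.finrank (IntermediateField.adjoin Kbar {jgen M}) (FF M)
      = Module.finrank (IntermediateField.adjoin Kbar {jF M (topDiv M)}) (FF M) :=
    Algebra.finrank_eq_of_equiv_equiv
      ((IntermediateField.equivMap (IntermediateField.adjoin Kbar {jgen M}) wA).trans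
        (IntermediateField.equivOfEq hmap)).toRingEquiv
      wE (RingHom.ext fun x => rfl)
  have h2 : Module.finrank (IntermediateField.adjoin Kbar {jF M (topDiv M)}) (FF M)
      = dedekindPsi M := by rw [← h1, hdeg]
  refine ⟨?_, h2⟩
  apply Module.finite_of_finrank_pos
  rw [h2]
  exact Fermat.Agent.S18.H87.dedekindPsi_pos M

/-- `[F_M : ℚ̄(j(q^d))] = ψ(M)` for every `d ∣ M`. -/
theorem finrank_adjoin_jF (M : ℕ) [NeZero M] (d : M.divisors) :
    FiniteDimensional (IntermediateField.adjoin Kbar {jF M d}) (FF M) ∧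
      Module.finrank (IntermediateField.adjoin Kbar {jF M d}) (FF M) = dedekindPsi M := by
  have hdM : (d : ℕ) ∣ M := Nat.dvd_of_mem_divisors d.2
  have : NeZero (d : ℕ) := ⟨fun h => NeZero.ne M (Nat.eq_zero_of_zero_dvd (h ▸ hdM))⟩
  have hle : modularFunctionFieldBar (d : ℕ) ≤ modularFunctionFieldBar M :=
    Fermat.Agent.S18.H87.modularFunctionFieldBar_mono hdM
  obtain ⟨-, h2⟩ := Fermat.Agent.S18.H87.finrank_FN (d : ℕ) M hle
  obtain ⟨-, h3⟩ := finrank_adjoin_jtop (d : ℕ)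
  have h4 := finrank_adjoin_map_tower (IntermediateField.inclusion hle) (jF (d : ℕ) (topDiv (d : ℕ)))
  have hι : IntermediateField.inclusion hle (jF (d : ℕ) (topDiv (d : ℕ))) = jF M d :=
    Subtype.ext rfl
  rw [hι, h3, mul_comm, h2] at h4
  refine ⟨?_, h4⟩
  apply Module.finite_of_finrank_pos
  rw [h4]
  exact Fermat.Agent.S18.H87.dedekindPsi_pos M

section Hecke

variable (N ℓ : ℕ) [NeZero N] [NeZero ℓ]

/-- `α : F_N → F_{Nℓ}` is finite. -/
theorem finiteAlong_alpha : FiniteAlong Kbar (heckeAlphaBar Kbar N ℓ) :=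
  (Fermat.Agent.S18.H87.finrank_FN N (N * ℓ)
    (Fermat.Agent.S18.H87.modularFunctionFieldBar_mono (dvd_mul_right N ℓ))).1

/-- `[F_{Nℓ} : α F_N] * ψ(N) = ψ(Nℓ)`. -/
theorem finrankAlong_alpha :
    finrankAlong Kbar (heckeAlphaBar Kbar N ℓ) * dedekindPsi N = dedekindPsi (N * ℓ) :=
  (Fermat.Agent.S18.H87.finrank_FN N (N * ℓ)
    (Fermat.Agent.S18.H87.modularFunctionFieldBar_mono (dvd_mul_right N ℓ))).2

/-- The divisor `ℓ` of `N ℓ`. -/
def ellDiv : (N * ℓ).divisors :=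
  ⟨ℓ, Nat.mem_divisors.mpr ⟨dvd_mul_left ℓ N, NeZero.ne (N * ℓ)⟩⟩

/-- `β(j) = j(q^ℓ)`. -/
theorem heckeBetaBar_jgen : heckeBetaBar Kbar N ℓ (jgen N) = jF (N * ℓ) (ellDiv N ℓ) := by
  apply Subtype.ext
  show qExpand Kbar ℓ (coeffEmb Kbar (qExpand ℚ 1 jq)) = coeffEmb Kbar (qExpand ℚ ℓ jq)
  have h : ∀ (d : ℕ) [NeZero d], coeffEmb Kbar (qExpand ℚ d jq) = qExpand Kbar d (jqModC Kbar) :=
    fun d _ => coeffMap_jqNModC (algebraMap ℚ Kbar) d
  rw [h 1, h ℓ, qExpand_one_apply]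

/-- `[F_{Nℓ} : β F_N] * ψ(N) = ψ(Nℓ)`. -/
theorem finrankAlong_beta :
    finrankAlong Kbar (heckeBetaBar Kbar N ℓ) * dedekindPsi N = dedekindPsi (N * ℓ) := by
  have h1 := finrank_adjoin_map_tower (heckeBetaBar Kbar N ℓ) (jgen N)
  rw [heckeBetaBar_jgen, (finrank_adjoin_jF (N * ℓ) (ellDiv N ℓ)).2,
    (Fermat.Agent.S18.H87.finrank_adjoin_jgen N).2] at h1
  rw [mul_comm]
  exact h1.symm

/-- `β : F_N → F_{Nℓ}` is finite. -/
theorem finiteAlong_beta : FiniteAlong Kbar (heckeBetaBar Kbar N ℓ) := by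
  have h := finrankAlong_beta N ℓ
  have hpos : 0 < finrankAlong Kbar (heckeBetaBar Kbar N ℓ) := by
    rcases Nat.eq_zero_or_pos (finrankAlong Kbar (heckeBetaBar Kbar N ℓ)) with h0 | h0
    · rw [h0, zero_mul] at h
      exact absurd h.symm (Fermat.Agent.S18.H87.dedekindPsi_pos (N * ℓ)).ne'
    · exact h0
  let _ : Algebra (FF N) (FF (N * ℓ)) := algebraAlong (heckeBetaBar Kbar N ℓ)
  exact Module.finite_of_finrank_pos (R := FF N) (M := FF (N * ℓ)) hpos

/-- `α` is integral. -/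
theorem heckeAlphaBarIntegral : HeckeAlphaBarIntegral Kbar N ℓ := by
  let _ : Algebra (FF N) (FF (N * ℓ)) := algebraAlong (heckeAlphaBar Kbar N ℓ)
  have : Module.Finite (FF N) (FF (N * ℓ)) := finiteAlong_alpha N ℓ
  exact fun x => Algebra.IsIntegral.isIntegral (R := FF N) x

/-- `β` is integral. -/
theorem heckeBetaBarIntegral : HeckeBetaBarIntegral Kbar N ℓ := by
  let _ : Algebra (FF N) (FF (N * ℓ)) := algebraAlong (heckeBetaBar Kbar N ℓ)
  have : Module.Finite (FF N) (FF (N * ℓ)) := finiteAlong_beta N ℓ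
  exact fun x => Algebra.IsIntegral.isIntegral (R := FF N) x

/-- For a prime `ℓ ∤ N`: `[F_{Nℓ} : α F_N] = ℓ + 1`. -/
theorem finrankAlong_alpha_prime (hℓ : ℓ.Prime) (hℓN : ¬ ℓ ∣ N) :
    finrankAlong Kbar (heckeAlphaBar Kbar N ℓ) = ℓ + 1 := by
  have h := finrankAlong_alpha N ℓ
  rw [S20.H77.dedekindPsi_mul_prime_of_not_dvd hℓ (NeZero.ne N) hℓN] at h
  exact Nat.eq_of_mul_eq_mul_right (Fermat.Agent.S18.H87.dedekindPsi_pos N) h

/-- For a prime `ℓ ∤ N`: `[F_{Nℓ} : β F_N] = ℓ + 1`. -/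
theorem finrankAlong_beta_prime (hℓ : ℓ.Prime) (hℓN : ¬ ℓ ∣ N) :
    finrankAlong Kbar (heckeBetaBar Kbar N ℓ) = ℓ + 1 := by
  have h := finrankAlong_beta N ℓ
  rw [S20.H77.dedekindPsi_mul_prime_of_not_dvd hℓ (NeZero.ne N) hℓN] at h
  exact Nat.eq_of_mul_eq_mul_right (Fermat.Agent.S18.H87.dedekindPsi_pos N) h

/-- For a prime `ℓ ∣ N`: `[F_{Nℓ} : α F_N] = ℓ`. -/
theorem finrankAlong_alpha_prime_dvd (hℓ : ℓ.Prime) (hℓN : ℓ ∣ N) :
    finrankAlong Kbar (heckeAlphaBar Kbar N ℓ) = ℓ := by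
  have h := finrankAlong_alpha N ℓ
  rw [S20.H77.dedekindPsi_mul_prime_of_dvd hℓ (NeZero.ne N) hℓN] at h
  exact Nat.eq_of_mul_eq_mul_right (Fermat.Agent.S18.H87.dedekindPsi_pos N) h

/-- For a prime `ℓ ∣ N`: `[F_{Nℓ} : β F_N] = ℓ`. -/
theorem finrankAlong_beta_prime_dvd (hℓ : ℓ.Prime) (hℓN : ℓ ∣ N) :
    finrankAlong Kbar (heckeBetaBar Kbar N ℓ) = ℓ := by
  have h := finrankAlong_beta N ℓ
  rw [S20.H77.dedekindPsi_mul_prime_of_dvd hℓ (NeZero.ne N) hℓN] at h
  exact Nat.eq_of_mul_eq_mul_right (Fermat.Agent.S18.H87.dedekindPsi_pos N) h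

end Hecke

end Fermat.Agent.S37.H87
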